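import Mathlib
import Fermat.Agent.S41.H281.Eis

/-!
# S41 / block IH' (helper645): bottom rows of the Hecke elements `γ_x` (L2)

Let `l ∤ N` be a prime, `γ = [[a, b], [c, d]] ∈ Γ₀(N)` and `γ_x = hElt hl γ x` the element of
`Γ₀(N)` with `α_x γ = γ_x α_{π x}` (`α_j = [[1, j], [0, l]]`, `α_∞ = [[l, 0], [0, 1]]`).  Then

* `x = ∞`, `l ∤ c` : `γ_x` has bottom row `(c, e)` with `d = c k + l e`;
* `x = j`, `l ∣ a + j c` : `γ_x` has bottom row `(c, l d)`;
* `x = j`, `l ∤ a + j c` : `γ_x` has bottom row `(l c, e)` with `e = d - k c` and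
  `(a + j c) e ≡ 1 mod l`.
-/

set_option autoImplicit false

namespace Fermat.Agent.S41.H645

open CongruenceSubgroup Matrix.SpecialLinearGroup
open Fermat.Agent.S29.H642 Fermat.Agent.S41.H281
open scoped MatrixGroups

variable {l N : ℕ} [Fact l.Prime]

theorem sl_det_entries (g : SL(2, ℤ)) : g 0 0 * g 1 1 - g 0 1 * g 1 0 = 1 := by
  have h := g.det_coe
  rw [Matrix.det_fin_two] at h
  exact h

/-- The four entries of the relation `α_∞ γ = γ' α_y`. -/
theorem hElt_infty_row (hl : ¬ l ∣ N) (γ : Gamma0 N)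
    (hc : ¬ (l : ℤ) ∣ (γ : SL(2, ℤ)) 1 0) :
    ((hElt hl γ OnePoint.infty : Gamma0 N) : SL(2, ℤ)) 1 0 = (γ : SL(2, ℤ)) 1 0 ∧
    ∃ k : ℤ, (γ : SL(2, ℤ)) 1 1 = (γ : SL(2, ℤ)) 1 0 * k +
      ((hElt hl γ OnePoint.infty : Gamma0 N) : SL(2, ℤ)) 1 1 * l := by
  have h := hElt_spec_int hl γ OnePoint.infty
  generalize hPerm l (γ : SL(2, ℤ)) OnePoint.infty = y at h
  have h10 := congrFun (congrFun h 1) 0
  have h11 := congrFun (congrFun h 1) 1
  induction y using OnePoint.rec with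
  | infty =>
    exfalso
    simp only [repInt_infty, Matrix.mul_apply, Fin.sum_univ_two, Matrix.of_apply,
      Matrix.cons_val', Matrix.cons_val_zero, Matrix.cons_val_one, Matrix.cons_val_fin_one,
      mul_zero, mul_one, add_zero, zero_add, zero_mul, one_mul] at h10 h11
    exact hc ⟨_, by rw [h10]; ring⟩
  | coe k =>
    simp only [repInt_infty, repInt_coe, Matrix.mul_apply, Fin.sum_univ_two, Matrix.of_apply,
      Matrix.cons_val', Matrix.cons_val_zero, Matrix.cons_val_one, Matrix.cons_val_fin_one,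
      mul_zero, mul_one, add_zero, zero_add, zero_mul, one_mul] at h10 h11
    refine ⟨h10.symm, (k.val : ℤ), ?_⟩
    rw [h11, ← h10]

/-- `x = j` with `l ∣ a + j c`: the bottom row of `γ_x` is `(c, l d)`. -/
theorem hElt_coe_row_of_dvd (hl : ¬ l ∣ N) (γ : Gamma0 N) (j : ZMod l)
    (hj : (l : ℤ) ∣ (γ : SL(2, ℤ)) 0 0 + (j.val : ℤ) * (γ : SL(2, ℤ)) 1 0) :
    ((hElt hl γ (j : OnePoint (ZMod l)) : Gamma0 N) : SL(2, ℤ)) 1 0 = (γ : SL(2, ℤ)) 1 0 ∧
    ((hElt hl γ (j : OnePoint (ZMod l)) : Gamma0 N) : SL(2, ℤ)) 1 1 =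
      (l : ℤ) * (γ : SL(2, ℤ)) 1 1 := by
  have hl0 : (l : ℤ) ≠ 0 := by exact_mod_cast (Fact.out : l.Prime).ne_zero
  have h := hElt_spec_int hl γ (j : OnePoint (ZMod l))
  have hdet := sl_det_entries ((hElt hl γ (j : OnePoint (ZMod l)) : Gamma0 N) : SL(2, ℤ))
  generalize hPerm l (γ : SL(2, ℤ)) (j : OnePoint (ZMod l)) = y at h
  have h00 := congrFun (congrFun h 0) 0
  have h10 := congrFun (congrFun h 1) 0
  have h11 := congrFun (congrFun h 1) 1
  induction y using OnePoint.rec with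
  | infty =>
    simp only [repInt_infty, repInt_coe, Matrix.mul_apply, Fin.sum_univ_two, Matrix.of_apply,
      Matrix.cons_val', Matrix.cons_val_zero, Matrix.cons_val_one, Matrix.cons_val_fin_one,
      mul_zero, mul_one, add_zero, zero_add, zero_mul, one_mul] at h00 h10 h11
    refine ⟨?_, h11.symm⟩
    have : (l : ℤ) * (((hElt hl γ (j : OnePoint (ZMod l)) : Gamma0 N) : SL(2, ℤ)) 1 0 -
        (γ : SL(2, ℤ)) 1 0) = 0 := by linear_combination -h10
    have := (mul_eq_zero.mp this).resolve_left hl0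
    linarith
  | coe k =>
    exfalso
    simp only [repInt_coe, Matrix.mul_apply, Fin.sum_univ_two, Matrix.of_apply,
      Matrix.cons_val', Matrix.cons_val_zero, Matrix.cons_val_one, Matrix.cons_val_fin_one,
      mul_zero, mul_one, add_zero, zero_add, zero_mul, one_mul] at h00 h10 h11
    -- `a' = a + j c`, `c' = l c`, so `det γ' = 1` gives `l ∣ 1`
    obtain ⟨t, ht⟩ := hj
    have h1 : (l : ℤ) ∣ 1 := by
      refine ⟨t * ((hElt hl γ (j : OnePoint (ZMod l)) : Gamma0 N) : SL(2, ℤ)) 1 1 -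
        ((hElt hl γ (j : OnePoint (ZMod l)) : Gamma0 N) : SL(2, ℤ)) 0 1 * (γ : SL(2, ℤ)) 1 0, ?_⟩
      linear_combination -hdet +
        ((hElt hl γ (j : OnePoint (ZMod l)) : Gamma0 N) : SL(2, ℤ)) 1 1 * (ht - h00) +
        ((hElt hl γ (j : OnePoint (ZMod l)) : Gamma0 N) : SL(2, ℤ)) 0 1 * h10
    have h2 := Int.natCast_dvd_natCast.mp (by simpa using h1 : ((l : ℕ) : ℤ) ∣ ((1 : ℕ) : ℤ))
    exact (Fact.out : l.Prime).one_lt.ne' (Nat.dvd_one.mp h2)

/-- `x = j` with `l ∤ a + j c`: the bottom row of `γ_x` is `(l c, e)` with `e = d - k c` and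
`(a + j c) e ≡ 1 mod l`. -/
theorem hElt_coe_row_of_not_dvd (hl : ¬ l ∣ N) (γ : Gamma0 N) (j : ZMod l)
    (hj : ¬ (l : ℤ) ∣ (γ : SL(2, ℤ)) 0 0 + (j.val : ℤ) * (γ : SL(2, ℤ)) 1 0) :
    ((hElt hl γ (j : OnePoint (ZMod l)) : Gamma0 N) : SL(2, ℤ)) 1 0 =
      (l : ℤ) * (γ : SL(2, ℤ)) 1 0 ∧
    (∃ k : ℤ, ((hElt hl γ (j : OnePoint (ZMod l)) : Gamma0 N) : SL(2, ℤ)) 1 1 =
      (γ : SL(2, ℤ)) 1 1 - k * (γ : SL(2, ℤ)) 1 0) ∧
    ∃ B : ℤ, ((γ : SL(2, ℤ)) 0 0 + (j.val : ℤ) * (γ : SL(2, ℤ)) 1 0) *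
      ((hElt hl γ (j : OnePoint (ZMod l)) : Gamma0 N) : SL(2, ℤ)) 1 1 = 1 + (l : ℤ) * B := by
  have hl0 : (l : ℤ) ≠ 0 := by exact_mod_cast (Fact.out : l.Prime).ne_zero
  have h := hElt_spec_int hl γ (j : OnePoint (ZMod l))
  have hdet := sl_det_entries ((hElt hl γ (j : OnePoint (ZMod l)) : Gamma0 N) : SL(2, ℤ))
  generalize hPerm l (γ : SL(2, ℤ)) (j : OnePoint (ZMod l)) = y at h
  have h00 := congrFun (congrFun h 0) 0
  have h10 := congrFun (congrFun h 1) 0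
  have h11 := congrFun (congrFun h 1) 1
  induction y using OnePoint.rec with
  | infty =>
    exfalso
    simp only [repInt_infty, repInt_coe, Matrix.mul_apply, Fin.sum_univ_two, Matrix.of_apply,
      Matrix.cons_val', Matrix.cons_val_zero, Matrix.cons_val_one, Matrix.cons_val_fin_one,
      mul_zero, mul_one, add_zero, zero_add, zero_mul, one_mul] at h00 h10 h11
    exact hj ⟨_, by rw [h00]; ring⟩
  | coe k =>
    simp only [repInt_coe, Matrix.mul_apply, Fin.sum_univ_two, Matrix.of_apply,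
      Matrix.cons_val', Matrix.cons_val_zero, Matrix.cons_val_one, Matrix.cons_val_fin_one,
      mul_zero, mul_one, add_zero, zero_add, zero_mul, one_mul] at h00 h10 h11
    refine ⟨h10.symm, ⟨(k.val : ℤ), ?_⟩, ⟨((hElt hl γ (j : OnePoint (ZMod l)) : Gamma0 N) :
      SL(2, ℤ)) 0 1 * (γ : SL(2, ℤ)) 1 0, ?_⟩⟩
    · have : (l : ℤ) * (((hElt hl γ (j : OnePoint (ZMod l)) : Gamma0 N) : SL(2, ℤ)) 1 1 -
          ((γ : SL(2, ℤ)) 1 1 - (k.val : ℤ) * (γ : SL(2, ℤ)) 1 0)) = 0 := by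
        rw [← h10] at h11
        linear_combination -h11
      have := (mul_eq_zero.mp this).resolve_left hl0
      linarith
    · rw [h00]
      rw [← h10] at hdet
      linear_combination hdet

end Fermat.Agent.S41.H645
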