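import Mathlib

/-!
# S41 / block IH' (helper645): the orbit sum lemma (L4)

Let `U` be a finite group, `w ∈ U` an element whose order is divisible by an odd number `p`, `F` an
abelian group killed by `p`, and `Fn : U → F` a function which is affine along the `w`-orbits:
`Fn (ε * w) = Fn ε - τ`.  Then `∑ ε, Fn ε = 0`.

Proof: decompose `U` into cosets `s * ⟨w⟩`; on each coset the sum is
`m • Fn s - (0 + 1 + ... + (m-1)) • τ` with `m = orderOf w`, and `p` divides both `m` and
`m (m - 1) / 2`.
-/

set_option autoImplicit false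

namespace Fermat.Agent.S41.H645

/-- An affine function along a `w`-orbit. -/
theorem apply_mul_pow_of_affine {U F : Type*} [Monoid U] [AddCommGroup F] (w : U) (Fn : U → F)
    (τ : F) (h : ∀ ε, Fn (ε * w) = Fn ε - τ) (ε : U) (i : ℕ) :
    Fn (ε * w ^ i) = Fn ε - i • τ := by
  induction i with
  | zero => simp
  | succ i ih => rw [pow_succ, ← mul_assoc, h, ih, succ_nsmul]; abel

/-- If `p` is odd and divides `m` then `p` divides `0 + 1 + ... + (m - 1)`. -/
theorem dvd_sum_range_id_of_odd {p m : ℕ} (hp : Odd p) (hm : p ∣ m) :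
    p ∣ ∑ i ∈ Finset.range m, i := by
  have h2 : (∑ i ∈ Finset.range m, i) * 2 = m * (m - 1) := Finset.sum_range_id_mul_two m
  have h3 : p ∣ (∑ i ∈ Finset.range m, i) * 2 := by
    rw [h2]; exact Dvd.dvd.mul_right hm _
  exact (Nat.Coprime.dvd_mul_right (Nat.Coprime.symm (Nat.coprime_two_left.mpr hp))).mp h3

/-- The sum of an affine function over one full `w`-orbit vanishes. -/
theorem sum_zpowers_of_affine {U F : Type*} [Group U] [Finite U] [AddCommGroup F]
    (p : ℕ) (hp : Odd p) (hF : ∀ x : F, p • x = 0) (w : U) (hw : p ∣ orderOf w)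
    (Fn : U → F) (τ : F) (h : ∀ ε, Fn (ε * w) = Fn ε - τ) (s : U)
    [Fintype (Subgroup.zpowers w)] :
    ∑ t : Subgroup.zpowers w, Fn (s * (t : U)) = 0 := by
  have hfin : IsOfFinOrder w := isOfFinOrder_of_finite w
  rw [← Equiv.sum_comp (finEquivZPowers hfin)]
  simp only [finEquivZPowers_apply]
  rw [Fin.sum_univ_eq_sum_range (fun i => Fn (s * w ^ i)) (orderOf w)]
  simp only [apply_mul_pow_of_affine w Fn τ h]
  rw [Finset.sum_sub_distrib, Finset.sum_const, Finset.card_range, ← Finset.sum_smul]
  obtain ⟨a, ha⟩ := hw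
  obtain ⟨b, hb⟩ := dvd_sum_range_id_of_odd hp (⟨a, ha⟩ : p ∣ orderOf w)
  rw [hb, ha, mul_comm p a, mul_comm p b, mul_nsmul, mul_nsmul, hF, hF, sub_zero]

/-- **Orbit sum lemma (L4)**: a function on a finite group which is affine along the orbits of an
element `w` of order divisible by the odd number `p`, with values in a group killed by `p`, has
total sum `0`. -/
theorem orbitSum_eq_zero {U F : Type*} [Group U] [Fintype U] [AddCommGroup F]
    (p : ℕ) (hp : Odd p) (hF : ∀ x : F, p • x = 0) (w : U) (hw : p ∣ orderOf w)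
    (Fn : U → F) (τ : F) (h : ∀ ε, Fn (ε * w) = Fn ε - τ) : ∑ ε, Fn ε = 0 := by
  classical
  obtain ⟨S, hS, -⟩ := Subgroup.exists_isComplement_left (Subgroup.zpowers w) (1 : U)
  let e : S × (Subgroup.zpowers w : Set U) ≃ U := Equiv.ofBijective _ hS
  letI : Fintype S := Fintype.ofFinite S
  letI : Fintype (Subgroup.zpowers w) := Fintype.ofFinite _
  rw [← Equiv.sum_comp e, Fintype.sum_prod_type]
  refine Finset.sum_eq_zero fun s _ => ?_
  exact sum_zpowers_of_affine p hp hF w hw Fn τ h (s : U)
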