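import Mathlib
import Fermat.Agent.S41.H645.OrbitSum
import Fermat.Agent.S41.H645.HeckeRows

/-!
# S41 / block IH' (helper645): the Hecke transfer at a Kummer prime (L3, assembly)

Let `φ : Γ₀(N) → A` be an additive character with values in a group killed by the odd number `p`
which satisfies the *unit symmetry*: there is `κ ∈ A` with `φ γ' = φ γ + k • κ` whenever `γ, γ'`
have the same lower left entry `c`, `q ∤ c`, and `γ'₁₁ ≡ q ^ (2 k) γ₁₁ mod c`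
(this is the exact conclusion of `H161.unit_sym_pow`, and follows with `κ = -2 Φ(diag(q, 1/q))`
from an extension `Φ` of `φ` to `Γ₀(N)[1/q]`).

Then for every prime `l ∤ N`, `l ≠ q` and every `γ ∈ Γ₀(N)` with lower left entry `c`, `q ∤ c`,
`l ≡ 1 mod c`, and every `k` with `q ^ (2 k) ≡ 1 mod c` and `p ∣ ord_l (q ^ (2 k))`:

  `(T_l φ)(γ) = 2 φ(γ)`.
-/

set_option autoImplicit false

namespace Fermat.Agent.S41.H645

open CongruenceSubgroup Matrix.SpecialLinearGroup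
open Fermat.Agent.S29.H642 Fermat.Agent.S41.H281
open scoped MatrixGroups

/-- Sum over a finite field = value at `0` + sum over the units. -/
theorem sum_eq_add_sum_units {K A : Type*} [Field K] [Fintype K] [DecidableEq K]
    [AddCommMonoid A] (f : K → A) : ∑ z, f z = f 0 + ∑ u : Kˣ, f (u : K) := by
  rw [Fintype.sum_eq_add_sum_subtype_ne f 0]
  congr 1
  exact (Equiv.sum_comp unitsEquivNeZero (fun z : {z : K // z ≠ 0} => f z.1)).symm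

/-- Sum over `ℙ¹` = value at `∞` + sum over the affine line. -/
theorem sum_onePoint {K A : Type*} [Fintype K] [AddCommMonoid A] (f : OnePoint K → A) :
    ∑ x : OnePoint K, f x = f OnePoint.infty + ∑ j : K, f (j : OnePoint K) :=
  Fintype.sum_option f

variable {N q p l : ℕ} [Fact l.Prime] {A : Type*} [AddCommGroup A]

/-- **IH', abstract form**: the Hecke transfer `T_l` at a Kummer prime `l` multiplies the value
of a character with unit symmetry at `γ` by `2`. -/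
theorem heckeTransfer_apply_eq_two_nsmul_of_unitSym (hl : ¬ l ∣ N)
    (hp : Odd p) (hA : ∀ a : A, p • a = 0)
    (φ : Additive (Gamma0 N) →+ A) (κ : A)
    (hUS : ∀ (k : ℕ) (γ γ' : Gamma0 N), (γ' : SL(2, ℤ)) 1 0 = (γ : SL(2, ℤ)) 1 0 →
      ¬ (q : ℤ) ∣ (γ : SL(2, ℤ)) 1 0 →
      (γ' : SL(2, ℤ)) 1 1 ≡ (q : ℤ) ^ (2 * k) * (γ : SL(2, ℤ)) 1 1 [ZMOD (γ : SL(2, ℤ)) 1 0] →
      φ (Additive.ofMul γ') = φ (Additive.ofMul γ) + k • κ)
    (hq : q.Prime) (hlq : l ≠ q) (γ : Gamma0 N) (hqc : ¬ (q : ℤ) ∣ (γ : SL(2, ℤ)) 1 0)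
    (h1 : (l : ℤ) ≡ 1 [ZMOD (γ : SL(2, ℤ)) 1 0]) (k : ℕ)
    (h2 : (q : ℤ) ^ (2 * k) ≡ 1 [ZMOD (γ : SL(2, ℤ)) 1 0])
    (h3 : p ∣ orderOf ((q : ZMod l) ^ (2 * k))) :
    heckeTransfer hl φ (Additive.ofMul γ) = (2 : ℕ) • φ (Additive.ofMul γ) := by
  classical
  have hlp : l.Prime := Fact.out
  have hl0 : (l : ℤ) ≠ 0 := by exact_mod_cast hlp.ne_zero
  obtain ⟨s, hs⟩ : (γ : SL(2, ℤ)) 1 0 ∣ (l : ℤ) - 1 := Int.modEq_iff_dvd.mp h1.symm
  obtain ⟨r, hr⟩ : (γ : SL(2, ℤ)) 1 0 ∣ (q : ℤ) ^ (2 * k) - 1 := Int.modEq_iff_dvd.mp h2.symm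
  -- `l ∤ c`
  have hlc : ¬ (l : ℤ) ∣ (γ : SL(2, ℤ)) 1 0 := by
    rintro ⟨t, ht⟩
    have h1' : (l : ℤ) ∣ 1 := ⟨1 - t * s, by rw [ht] at hs; linear_combination -hs⟩
    have h2' := Int.natCast_dvd_natCast.mp (by simpa using h1' : ((l : ℕ) : ℤ) ∣ ((1 : ℕ) : ℤ))
    exact hlp.one_lt.ne' (Nat.dvd_one.mp h2')
  have hcop : IsCoprime (l : ℤ) ((γ : SL(2, ℤ)) 1 0) := ⟨1, -s, by linear_combination hs⟩
  -- `q ∤ l c`
  have hqlc : ¬ (q : ℤ) ∣ (l : ℤ) * (γ : SL(2, ℤ)) 1 0 := by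
    intro h
    rcases (Nat.prime_iff_prime_int.mp hq).dvd_or_dvd h with h | h
    · exact hlq ((Nat.prime_dvd_prime_iff_eq hq hlp).mp (Int.natCast_dvd_natCast.mp h)).symm
    · exact hqc h
  -- the row lemma (`k = 0`)
  have hrow : ∀ γ₁ γ₂ : Gamma0 N, (γ₂ : SL(2, ℤ)) 1 0 = (γ₁ : SL(2, ℤ)) 1 0 →
      ¬ (q : ℤ) ∣ (γ₁ : SL(2, ℤ)) 1 0 →
      (γ₁ : SL(2, ℤ)) 1 0 ∣ (γ₁ : SL(2, ℤ)) 1 1 - (γ₂ : SL(2, ℤ)) 1 1 →
      φ (Additive.ofMul γ₂) = φ (Additive.ofMul γ₁) := by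
    intro γ₁ γ₂ h h' h''
    have := hUS 0 γ₁ γ₂ h h' (by
      simp only [mul_zero, pow_zero, one_mul]
      exact Int.modEq_iff_dvd.mpr h'')
    simpa using this
  -- the term `x = ∞`
  have hinf : φ (Additive.ofMul (hElt hl γ OnePoint.infty)) = φ (Additive.ofMul γ) := by
    obtain ⟨h10, k0, hk0⟩ := hElt_infty_row hl γ hlc
    refine hrow γ _ h10 hqc ⟨k0 + ((hElt hl γ OnePoint.infty : Gamma0 N) : SL(2, ℤ)) 1 1 * s, ?_⟩
    linear_combination hk0 + ((hElt hl γ OnePoint.infty : Gamma0 N) : SL(2, ℤ)) 1 1 * hs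
  -- the affine reparametrisation `z = a + j c`
  set abar : ZMod l := (((γ : SL(2, ℤ)) 0 0 : ℤ) : ZMod l) with habar
  set cbar : ZMod l := (((γ : SL(2, ℤ)) 1 0 : ℤ) : ZMod l) with hcbar
  have hcbar0 : cbar ≠ 0 := fun h => hlc ((ZMod.intCast_zmod_eq_zero_iff_dvd _ _).mp h)
  let e₁ : ZMod l ≃ ZMod l :=
    (Equiv.subRight abar).trans (Equiv.mulRight₀ cbar⁻¹ (inv_ne_zero hcbar0))
  have he₁ : ∀ z, e₁ z = (z - abar) * cbar⁻¹ := fun z => rfl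
  have hz : ∀ z : ZMod l, ((((γ : SL(2, ℤ)) 0 0 + ((e₁ z).val : ℤ) * (γ : SL(2, ℤ)) 1 0 : ℤ)) :
      ZMod l) = z := by
    intro z
    push_cast
    rw [ZMod.natCast_zmod_val, he₁, ← habar, ← hcbar]
    field_simp
    ring
  -- the term `z = 0`
  have hzero : φ (Additive.ofMul (hElt hl γ ((e₁ 0 : ZMod l) : OnePoint (ZMod l)))) =
      φ (Additive.ofMul γ) := by
    have hdvd : (l : ℤ) ∣ (γ : SL(2, ℤ)) 0 0 + ((e₁ 0).val : ℤ) * (γ : SL(2, ℤ)) 1 0 :=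
      (ZMod.intCast_zmod_eq_zero_iff_dvd _ _).mp (hz 0)
    obtain ⟨h10, h11⟩ := hElt_coe_row_of_dvd hl γ (e₁ 0) hdvd
    refine hrow γ _ h10 hqc ⟨-((γ : SL(2, ℤ)) 1 1 * s), ?_⟩
    rw [h11]
    linear_combination (-(γ : SL(2, ℤ)) 1 1) * hs
  -- the unit `w = q ^ (2 k)` of `ℤ / l`
  have hqbar : (q : ZMod l) ≠ 0 := by
    intro h
    have h' := (ZMod.natCast_eq_zero_iff q l).mp h
    exact hlq ((Nat.prime_dvd_prime_iff_eq hlp hq).mp h')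
  set W : (ZMod l)ˣ := Units.mk0 ((q : ZMod l) ^ (2 * k)) (pow_ne_zero _ hqbar) with hW
  have hWord : p ∣ orderOf (W⁻¹) := by
    rw [orderOf_inv, ← orderOf_units, hW, Units.val_mk0]
    exact h3
  -- the function on the units
  set Fn : (ZMod l)ˣ → A :=
    fun u => φ (Additive.ofMul (hElt hl γ ((e₁ (u : ZMod l) : ZMod l) : OnePoint (ZMod l))))
    with hFn
  have hshift : ∀ u : (ZMod l)ˣ, Fn (u * W⁻¹) = Fn u - (-(k • κ)) := by
    intro u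
    rw [sub_neg_eq_add]
    have hnd : ∀ v : (ZMod l)ˣ,
        ¬ (l : ℤ) ∣ (γ : SL(2, ℤ)) 0 0 + ((e₁ (v : ZMod l)).val : ℤ) * (γ : SL(2, ℤ)) 1 0 := by
      intro v h
      have := (ZMod.intCast_zmod_eq_zero_iff_dvd _ _).mpr h
      rw [hz] at this
      exact v.ne_zero this
    obtain ⟨g10, ⟨k₁, hk₁⟩, ⟨B₁, hB₁⟩⟩ := hElt_coe_row_of_not_dvd hl γ (e₁ (u : ZMod l)) (hnd u)
    obtain ⟨g10', ⟨k₂, hk₂⟩, ⟨B₂, hB₂⟩⟩ :=
      hElt_coe_row_of_not_dvd hl γ (e₁ ((u * W⁻¹ : (ZMod l)ˣ) : ZMod l)) (hnd (u * W⁻¹))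
    set g := hElt hl γ ((e₁ (u : ZMod l) : ZMod l) : OnePoint (ZMod l)) with hg
    set g' := hElt hl γ ((e₁ ((u * W⁻¹ : (ZMod l)ˣ) : ZMod l) : ZMod l) : OnePoint (ZMod l))
      with hg'
    show φ (Additive.ofMul g') = φ (Additive.ofMul g) + k • κ
    refine hUS k g g' (g10'.trans g10.symm) (by rw [g10]; exact hqlc) ?_
    rw [g10]
    apply Int.modEq_iff_dvd.mpr
    refine hcop.mul_dvd ?_ ?_
    · -- modulo `l`
      apply (ZMod.intCast_zmod_eq_zero_iff_dvd _ _).mp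
      have e1 := congrArg (Int.cast : ℤ → ZMod l) hB₁
      have e2 := congrArg (Int.cast : ℤ → ZMod l) hB₂
      rw [Int.cast_mul, hz] at e1 e2
      simp only [Int.cast_add, Int.cast_one, Int.cast_mul, Int.cast_natCast,
        ZMod.natCast_self, zero_mul, add_zero] at e1 e2
      -- e1 : u * ē = 1, e2 : (u W⁻¹) * ē' = 1
      have hu : ((g : SL(2, ℤ)) 1 1 : ZMod l) = ((u⁻¹ : (ZMod l)ˣ) : ZMod l) := by
        rw [Units.val_inv_eq_inv_val]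
        exact eq_inv_of_mul_eq_one_right e1
      have hu' : ((g' : SL(2, ℤ)) 1 1 : ZMod l) = (((u * W⁻¹)⁻¹ : (ZMod l)ˣ) : ZMod l) := by
        rw [Units.val_inv_eq_inv_val]
        exact eq_inv_of_mul_eq_one_right e2
      push_cast
      rw [hu, hu']
      have hWv : ((q : ZMod l)) ^ (2 * k) = (W : ZMod l) := by rw [hW, Units.val_mk0]
      rw [hWv, sub_eq_zero, ← Units.val_mul]
      congr 1
    · -- modulo `c`
      refine ⟨r * (γ : SL(2, ℤ)) 1 1 - (q : ℤ) ^ (2 * k) * k₁ + k₂, ?_⟩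
      rw [hk₁, hk₂]
      linear_combination (γ : SL(2, ℤ)) 1 1 * hr
  have hunits : ∑ u : (ZMod l)ˣ, Fn u = 0 :=
    orbitSum_eq_zero p hp hA W⁻¹ hWord Fn (-(k • κ)) hshift
  -- assemble
  rw [heckeTransfer_apply, sum_onePoint, hinf,
    ← Equiv.sum_comp e₁ (fun j : ZMod l =>
      φ (Additive.ofMul (hElt hl γ ((j : ZMod l) : OnePoint (ZMod l))))),
    sum_eq_add_sum_units, hzero]
  rw [show (∑ u : (ZMod l)ˣ, φ (Additive.ofMul (hElt hl γ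
      ((e₁ (u : ZMod l) : ZMod l) : OnePoint (ZMod l))))) = ∑ u : (ZMod l)ˣ, Fn u from rfl,
    hunits, add_zero, two_nsmul]

/-- **KUM**: if `2 k p ∣ l - 1` and `q ^ ((l - 1) / p) ≠ 1` in `ℤ / l` (the Kummer condition:
`q` is not a `p`-th power modulo `l`), then `p` divides the order of `q ^ (2 k)` in `ℤ / l`. -/
theorem dvd_orderOf_pow_of_kummer {l p q k : ℕ} [Fact l.Prime] (hp : p.Prime)
    (hdvd : 2 * k * p ∣ l - 1) (hK : (q : ZMod l) ^ ((l - 1) / p) ≠ 1) :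
    p ∣ orderOf ((q : ZMod l) ^ (2 * k)) := by
  have hlp : l.Prime := Fact.out
  obtain ⟨t, ht⟩ := hdvd
  have hdiv : (l - 1) / p = 2 * k * t := by
    rw [ht, show 2 * k * p * t = 2 * k * t * p by ring]
    exact Nat.mul_div_cancel _ hp.pos
  have hk0 : k ≠ 0 := by
    rintro rfl
    simp only [mul_zero, zero_mul] at ht
    have := hlp.one_lt
    omega
  rcases eq_or_ne (q : ZMod l) 0 with hq0 | hq0
  · rw [hq0, zero_pow (by omega : 2 * k ≠ 0), orderOf_eq_zero_iff.mpr]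
    · exact dvd_zero p
    · intro h
      obtain ⟨n, hn, hn'⟩ := h.exists_pow_eq_one
      rw [zero_pow hn.ne'] at hn'
      exact zero_ne_one hn'
  · by_contra hnd
    have h1 : ((q : ZMod l) ^ (2 * k)) ^ (p * t) = 1 := by
      rw [← pow_mul, show 2 * k * (p * t) = l - 1 by rw [ht]; ring]
      exact ZMod.pow_card_sub_one_eq_one hq0
    have h2 : orderOf ((q : ZMod l) ^ (2 * k)) ∣ p * t := orderOf_dvd_of_pow_eq_one h1
    have h3 : Nat.Coprime (orderOf ((q : ZMod l) ^ (2 * k))) p :=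
      Nat.Coprime.symm ((Nat.Prime.coprime_iff_not_dvd hp).mpr hnd)
    have h4 : orderOf ((q : ZMod l) ^ (2 * k)) ∣ t := h3.dvd_of_dvd_mul_left h2
    apply hK
    rw [hdiv, pow_mul]
    exact orderOf_dvd_iff_pow_eq_one.mp h4

/-- **IH', Kummer form**: `(T_l φ)(γ) = 2 φ(γ)` for a character `φ` with unit symmetry and a
prime `l ≡ 1 mod c`, `2 k p ∣ l - 1`, `q ^ (2 k) ≡ 1 mod c`, `q ^ ((l - 1) / p) ≠ 1 mod l`. -/
theorem heckeTransfer_apply_eq_two_nsmul_of_kummer (hl : ¬ l ∣ N)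
    (hp : p.Prime) (hp2 : p ≠ 2) (hA : ∀ a : A, p • a = 0)
    (φ : Additive (Gamma0 N) →+ A) (κ : A)
    (hUS : ∀ (k : ℕ) (γ γ' : Gamma0 N), (γ' : SL(2, ℤ)) 1 0 = (γ : SL(2, ℤ)) 1 0 →
      ¬ (q : ℤ) ∣ (γ : SL(2, ℤ)) 1 0 →
      (γ' : SL(2, ℤ)) 1 1 ≡ (q : ℤ) ^ (2 * k) * (γ : SL(2, ℤ)) 1 1 [ZMOD (γ : SL(2, ℤ)) 1 0] →
      φ (Additive.ofMul γ') = φ (Additive.ofMul γ) + k • κ)
    (hq : q.Prime) (hlq : l ≠ q) (γ : Gamma0 N) (hqc : ¬ (q : ℤ) ∣ (γ : SL(2, ℤ)) 1 0)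
    (h1 : (l : ℤ) ≡ 1 [ZMOD (γ : SL(2, ℤ)) 1 0]) (k : ℕ)
    (h2 : (q : ℤ) ^ (2 * k) ≡ 1 [ZMOD (γ : SL(2, ℤ)) 1 0])
    (hdvd : 2 * k * p ∣ l - 1) (hK : (q : ZMod l) ^ ((l - 1) / p) ≠ 1) :
    heckeTransfer hl φ (Additive.ofMul γ) = (2 : ℕ) • φ (Additive.ofMul γ) :=
  heckeTransfer_apply_eq_two_nsmul_of_unitSym hl (hp.odd_of_ne_two hp2) hA φ κ hUS hq hlq γ hqc
    h1 k h2 (dvd_orderOf_pow_of_kummer hp hdvd hK)

end Fermat.Agent.S41.H645
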